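/-
MAZ brick 737 (T1B-U5, helper44), part 1: the push-pull identity `φ_* φ^* = deg φ` on divisors and on
`Pic⁰`, and the level push-forward `levelPush h : JZero M →+ JZero N` (`N ∣ M`) along the inclusion
`levelIncl h : F̄_N → F̄_M`.

* generic (`K` algebraically closed of characteristic zero, `F` with a generator in the sense of
  `FundId12`): `pushforwardAlong_pullbackAlong`, `pic0Push_pic0PullbackAlong`;
* `levelPush h : JZero M →+ JZero N`, `levelPush_mk`, `levelPush_smul` (Galois-equivariance),
  `levelPush_levelPullback : levelPush h (levelPullback h x) = levelDeg h • x`, `levelDeg_pos`.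
-/
import Mathlib
import Fermat.Agent.T1B.Degen21.Level
import Fermat.Agent.ES.RED.PullbackInj12

set_option autoImplicit false
set_option linter.style.haveILetI false
set_option linter.unusedSectionVars false

open ModularCurve AlgebraicCurve

noncomputable section

namespace Fermat.Agent.MAZ.K3Level44

open Fermat.Agent.ES.HECKE Fermat.Agent.ES.HECKE.LevelPullback12 Fermat.Agent.T1B.Degen21.Pic
  Fermat.Agent.RED.TOP

local notation "Qb" => AlgebraicClosure ℚ

/-! ### generic: `φ_* φ^* = deg φ` -/

section Generic

variable {K F F' : Type*} [Field K] [Field F] [Field F'] [Algebra K F] [Algebra K F']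
  [IsAlgClosed K] [CharZero K] [HasPrincipalDivisors K F']

/-- **push-pull on divisors**: `φ_* (φ^* D) = deg φ • D`. -/
theorem pushforwardAlong_pullbackAlong (φ : F →ₐ[K] F') (hφ : φ.toRingHom.IsIntegral)
    (hfin : FiniteAlong K φ) {x : F} (hx : Fermat.Agent.X0.FF.IsGen K x) (D : Divisor K F) :
    Divisor.pushforwardAlong φ hφ (Divisor.pullbackAlong φ hφ D) = finrankAlong K φ • D := by
  induction D using Finsupp.induction_linear with
  | zero => rw [map_zero, map_zero, smul_zero]
  | add D E hD hE => rw [map_add, map_add, hD, hE, smul_add]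
  | single v n =>
    rw [Divisor.pullbackAlong_single, map_sum]
    have key : ∀ W ∈ Place.fiberAlong φ hφ v,
        Divisor.pushforwardAlong φ hφ (Finsupp.single W (n * (W.ramificationIndexAlong φ : ℤ))) =
          Finsupp.single v (n * (W.ramificationIndexAlong φ : ℤ)) := by
      intro W hW
      rw [Divisor.pushforwardAlong_single, Place.mem_fiberAlong.mp hW,
        FundId12.inertiaDegAlong_eq_one φ hφ hfin hx W, Nat.cast_one, mul_one]
    rw [Finset.sum_congr rfl key, ← Finsupp.single_finsetSum, ← Finset.mul_sum,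
      FundId12.sum_ramificationIndexAlong φ hφ hfin hx v, Finsupp.smul_single, nsmul_eq_mul,
      mul_comm]

/-- **push-pull on `Pic⁰`**: `φ_* (φ^* y) = deg φ • y`. -/
theorem pic0Push_pic0PullbackAlong (φ : F →ₐ[K] F') (hφ : φ.toRingHom.IsIntegral)
    (hfin : FiniteAlong K φ) (hN : NormFormulaAlong K φ hfin)
    (hFI : FundamentalIdentityAlong K φ hφ) {x : F} (hx : Fermat.Agent.X0.FF.IsGen K x) (y : Pic0 K F) :
    pic0Push φ hφ hfin hN (pic0PullbackAlong φ hφ hFI y) = finrankAlong K φ • y := by
  obtain ⟨D, rfl⟩ := Pic0.mk_surjective y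
  rw [pic0PullbackAlong_mk, pic0Push_mk]
  have h : finrankAlong K φ • Pic0.mk D = Pic0.mk (finrankAlong K φ • D) := rfl
  rw [h]
  refine congrArg Pic0.mk (Subtype.ext ?_)
  rw [coe_degZeroPush, AddSubgroup.coe_nsmul]
  exact pushforwardAlong_pullbackAlong φ hφ hfin hx (D : Divisor K F)

/-- the degree of a finite morphism is positive. -/
theorem finrankAlong_pos (φ : F →ₐ[K] F') (hfin : FiniteAlong K φ) : 0 < finrankAlong K φ := by
  letI := algebraAlong φ
  haveI : Module.Finite F F' := hfin
  exact Module.finrank_pos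

end Generic

/-! ### the level push-forward -/

section Level

variable {N M : ℕ} [NeZero N] [NeZero M]

theorem levelIncl_normFormulaAlong (h : N ∣ M) :
    NormFormulaAlong Qb (levelIncl h) (levelIncl_finiteAlong h) :=
  NormFormula15.normFormulaAlong_of_isGen _ _ (FbarFacts20.isGen_j M)

/-- **`π_* : JZero M →+ JZero N`** for `N ∣ M`: the push-forward along the inclusion `F̄_N ⊆ F̄_M`. -/
def levelPush (h : N ∣ M) : JZero M →+ JZero N :=
  pic0Push (levelIncl h) (levelIncl_isIntegral h) (levelIncl_finiteAlong h)
    (levelIncl_normFormulaAlong h)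

theorem levelPush_mk (h : N ∣ M)
    (D : Divisor.degZero (K := Qb) (F := modularFunctionFieldBar M)) :
    levelPush h (Pic0.mk D) = Pic0.mk (degZeroPush (levelIncl h) (levelIncl_isIntegral h) D) :=
  rfl

/-- **`π_*` is `Gal(ℚ̄/ℚ)`-equivariant.** -/
theorem levelPush_smul (h : N ∣ M) (σ : Qb ≃ₐ[ℚ] Qb) (x : JZero M) :
    levelPush h (σ • x) = σ • levelPush h x := by
  haveI := FbarFacts20.hasPrincipalDivisors_bar M
  rw [galois_smul_pic0_def, galois_smul_pic0_def]
  exact pic0Push_smul _ _ _ _ (arithmeticGalois (modularFunctionFieldFull N) σ)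
    (arithmeticGalois (modularFunctionFieldFull M) σ)
    (Fermat.Agent.ES.RED.PullbackInj12.levelIncl_arithmeticGalois_smul h σ)
    (fun w => FundId12.inertiaDegAlong_eq_one _ _ (levelIncl_finiteAlong h)
      (FbarFacts20.isGen_j N) w) x

/-- the degree `[F̄_M : F̄_N]` of the level map. -/
def levelDeg (h : N ∣ M) : ℕ := finrankAlong Qb (levelIncl h)

theorem levelDeg_pos (h : N ∣ M) : 0 < levelDeg h :=
  haveI := FbarFacts20.hasPrincipalDivisors_bar M
  finrankAlong_pos (levelIncl h) (levelIncl_finiteAlong h)

/-- **push-pull for the level maps**: `π_* π^* = deg π`. -/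
theorem levelPush_levelPullback (h : N ∣ M) (x : JZero N) :
    levelPush h (levelPullback h x) = levelDeg h • x :=
  haveI := FbarFacts20.hasPrincipalDivisors_bar M
  pic0Push_pic0PullbackAlong (levelIncl h) (levelIncl_isIntegral h) (levelIncl_finiteAlong h)
    (levelIncl_normFormulaAlong h) (levelIncl_fundamentalIdentityAlong h) (FbarFacts20.isGen_j N) x

end Level

end Fermat.Agent.MAZ.K3Level44
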