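/-
MAZ brick 737 (T1B-U5, helper44), part 2: **level transfer of (K3)**.

`(K3)` at level `M` (a multiple of `N`): there are `M₀ > 0` and, for every `k` and every rational point
`x ∈ J₀(M)(ℚ)`, a point `z'` with `r ^ k • z' = M₀ • x` fixed by a set `I` of Galois automorphisms (the
inertia group at `p`).  Then the same holds at level `N`, with `M₀` replaced by `deg(π) * M₀`:
pull `x ∈ J₀(N)(ℚ)` back along `π^* = levelPullback h` (Galois-equivariant, so `π^* x` is rational),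
divide upstairs, and push down along `π_* = levelPush h` (Galois-equivariant, `π_* π^* = deg π`).

* `k3_transfer`        : the generic statement (`N ∣ M`, any set `I` of automorphisms);
* `k3_transfer_image`, `k3_of_level_four_image`, `k3_of_level_mul_image` : the same with (K3) upstairs
  required only for the points `π^* x`, `x ∈ J₀(N)(ℚ)`;
* `k3_of_level_four`   : the shape needed for S15: level `p * 2 * 2` to level `p`, `I` the inertia group
  `Ap.inertiaSubgroupIn ℚ` of a place `Ap` over `p` (the conclusion is helper88's `Endgame88.LeafK3 p r`,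
  expanded);
* `k3_of_level_mul`    : the same from any level `p * m`.
-/
import Mathlib
import Fermat.Agent.MAZ.K3Level44.PushPull

set_option autoImplicit false
set_option linter.style.haveILetI false
set_option linter.unusedSectionVars false

open ModularCurve AlgebraicCurve

noncomputable section

namespace Fermat.Agent.MAZ.K3Level44

open Fermat.Agent.ES.HECKE.LevelPullback12

local notation "Qb" => AlgebraicClosure ℚ
local notation "Γℚ" => (AlgebraicClosure ℚ ≃ₐ[ℚ] AlgebraicClosure ℚ)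

section Transfer

variable {N M : ℕ} [NeZero N] [NeZero M]

/-- `π^*` maps rational points to rational points. -/
theorem levelPullback_mem_fixedPoints (h : N ∣ M) {x : JZero N}
    (hx : x ∈ FixedPoints.addSubgroup Γℚ (JZero N)) :
    levelPullback h x ∈ FixedPoints.addSubgroup Γℚ (JZero M) := by
  intro σ
  rw [← Fermat.Agent.ES.RED.PullbackInj12.levelPullback_smul h σ x, hx σ]

/-- `π_*` maps rational points to rational points. -/
theorem levelPush_mem_fixedPoints (h : N ∣ M) {x : JZero M}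
    (hx : x ∈ FixedPoints.addSubgroup Γℚ (JZero M)) :
    levelPush h x ∈ FixedPoints.addSubgroup Γℚ (JZero N) := by
  intro σ
  rw [← levelPush_smul h σ x, hx σ]

/-- **Level transfer of (K3), image form**: (K3) upstairs is only needed for the points `π^* x`,
`x ∈ J₀(N)(ℚ)` (so that uniformity of `M₀` can come from finite generation of `J₀(N)(ℚ)` alone). -/
theorem k3_transfer_image (h : N ∣ M) (r : ℕ) (I : Set Γℚ) (M₀ : ℕ)
    (hK : ∀ k : ℕ, ∀ x ∈ FixedPoints.addSubgroup Γℚ (JZero N),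
      ∃ z' : JZero M, r ^ k • z' = M₀ • levelPullback h x ∧ ∀ s ∈ I, s • z' = z') :
    ∀ k : ℕ, ∀ x ∈ FixedPoints.addSubgroup Γℚ (JZero N),
      ∃ z' : JZero N, r ^ k • z' = (levelDeg h * M₀) • x ∧ ∀ s ∈ I, s • z' = z' := by
  intro k x hx
  obtain ⟨z, hz, hzI⟩ := hK k x hx
  refine ⟨levelPush h z, ?_, fun s hs => ?_⟩
  · rw [← map_nsmul, hz, map_nsmul, levelPush_levelPullback, ← mul_nsmul, mul_comm]
  · rw [← levelPush_smul h s z, hzI s hs]

/-- **Level transfer of (K3), generic form.** -/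
theorem k3_transfer (h : N ∣ M) (r : ℕ) (I : Set Γℚ) (M₀ : ℕ)
    (hK : ∀ k : ℕ, ∀ x ∈ FixedPoints.addSubgroup Γℚ (JZero M),
      ∃ z' : JZero M, r ^ k • z' = M₀ • x ∧ ∀ s ∈ I, s • z' = z') :
    ∀ k : ℕ, ∀ x ∈ FixedPoints.addSubgroup Γℚ (JZero N),
      ∃ z' : JZero N, r ^ k • z' = (levelDeg h * M₀) • x ∧ ∀ s ∈ I, s • z' = z' := by
  intro k x hx
  obtain ⟨z, hz, hzI⟩ := hK k (levelPullback h x) (levelPullback_mem_fixedPoints h hx)
  refine ⟨levelPush h z, ?_, fun s hs => ?_⟩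
  · rw [← map_nsmul, hz, map_nsmul, levelPush_levelPullback, ← mul_nsmul, mul_comm]
  · rw [← levelPush_smul h s z, hzI s hs]

end Transfer

/-- **(K3) at level `p * m` implies (K3) at level `p`** (the conclusion is `Endgame88.LeafK3 p r`,
expanded). -/
theorem k3_of_level_mul (p m r : ℕ) [NeZero p] [NeZero (p * m)]
    (hK : ∃ Ap : ValuationSubring Qb, Ap.LiesOverPrime p ∧ ∃ M₀ : ℕ, 0 < M₀ ∧
      ∀ k : ℕ, ∀ x ∈ FixedPoints.addSubgroup Γℚ (JZero (p * m)),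
        ∃ z' : JZero (p * m), r ^ k • z' = M₀ • x ∧ ∀ s ∈ Ap.inertiaSubgroupIn ℚ, s • z' = z') :
    ∃ Ap : ValuationSubring Qb, Ap.LiesOverPrime p ∧ ∃ M₁ : ℕ, 0 < M₁ ∧
      ∀ k : ℕ, ∀ x ∈ FixedPoints.addSubgroup Γℚ (JZero p),
        ∃ z' : JZero p, r ^ k • z' = M₁ • x ∧ ∀ s ∈ Ap.inertiaSubgroupIn ℚ, s • z' = z' := by
  obtain ⟨Ap, hAp, M₀, hM₀, hK'⟩ := hK
  have h : p ∣ p * m := dvd_mul_right p m
  exact ⟨Ap, hAp, levelDeg h * M₀, Nat.mul_pos (levelDeg_pos h) hM₀,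
    k3_transfer h r (Ap.inertiaSubgroupIn ℚ : Set Γℚ) M₀ hK'⟩

/-- **(K3) at level `p * m` on the image of `J₀(p)(ℚ)` implies (K3) at level `p`.** -/
theorem k3_of_level_mul_image (p m r : ℕ) [NeZero p] [NeZero (p * m)] (h : p ∣ p * m)
    (hK : ∃ Ap : ValuationSubring Qb, Ap.LiesOverPrime p ∧ ∃ M₀ : ℕ, 0 < M₀ ∧
      ∀ k : ℕ, ∀ x ∈ FixedPoints.addSubgroup Γℚ (JZero p),
        ∃ z' : JZero (p * m), r ^ k • z' = M₀ • levelPullback h x ∧
          ∀ s ∈ Ap.inertiaSubgroupIn ℚ, s • z' = z') :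
    ∃ Ap : ValuationSubring Qb, Ap.LiesOverPrime p ∧ ∃ M₁ : ℕ, 0 < M₁ ∧
      ∀ k : ℕ, ∀ x ∈ FixedPoints.addSubgroup Γℚ (JZero p),
        ∃ z' : JZero p, r ^ k • z' = M₁ • x ∧ ∀ s ∈ Ap.inertiaSubgroupIn ℚ, s • z' = z' := by
  obtain ⟨Ap, hAp, M₀, hM₀, hK'⟩ := hK
  exact ⟨Ap, hAp, levelDeg h * M₀, Nat.mul_pos (levelDeg_pos h) hM₀,
    k3_transfer_image h r (Ap.inertiaSubgroupIn ℚ : Set Γℚ) M₀ hK'⟩

/-- **(K3) at level `4p = p * 2 * 2` on the image of `J₀(p)(ℚ)` implies (K3) at level `p`**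
(`h` is any proof of `p ∣ p * 2 * 2`, e.g. `⟨2 * 2, by ring⟩`). -/
theorem k3_of_level_four_image (p r : ℕ) [NeZero p] [NeZero (p * 2 * 2)] (h : p ∣ p * 2 * 2)
    (hK : ∃ Ap : ValuationSubring Qb, Ap.LiesOverPrime p ∧ ∃ M₀ : ℕ, 0 < M₀ ∧
      ∀ k : ℕ, ∀ x ∈ FixedPoints.addSubgroup Γℚ (JZero p),
        ∃ z' : JZero (p * 2 * 2), r ^ k • z' = M₀ • levelPullback h x ∧
          ∀ s ∈ Ap.inertiaSubgroupIn ℚ, s • z' = z') :
    ∃ Ap : ValuationSubring Qb, Ap.LiesOverPrime p ∧ ∃ M₁ : ℕ, 0 < M₁ ∧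
      ∀ k : ℕ, ∀ x ∈ FixedPoints.addSubgroup Γℚ (JZero p),
        ∃ z' : JZero p, r ^ k • z' = M₁ • x ∧ ∀ s ∈ Ap.inertiaSubgroupIn ℚ, s • z' = z' := by
  obtain ⟨Ap, hAp, M₀, hM₀, hK'⟩ := hK
  exact ⟨Ap, hAp, levelDeg h * M₀, Nat.mul_pos (levelDeg_pos h) hM₀,
    k3_transfer_image h r (Ap.inertiaSubgroupIn ℚ : Set Γℚ) M₀ hK'⟩

/-- **(K3) at level `4p = p * 2 * 2` implies (K3) at level `p`.** -/
theorem k3_of_level_four (p r : ℕ) [NeZero p] [NeZero (p * 2 * 2)]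
    (hK : ∃ Ap : ValuationSubring Qb, Ap.LiesOverPrime p ∧ ∃ M₀ : ℕ, 0 < M₀ ∧
      ∀ k : ℕ, ∀ x ∈ FixedPoints.addSubgroup Γℚ (JZero (p * 2 * 2)),
        ∃ z' : JZero (p * 2 * 2), r ^ k • z' = M₀ • x ∧
          ∀ s ∈ Ap.inertiaSubgroupIn ℚ, s • z' = z') :
    ∃ Ap : ValuationSubring Qb, Ap.LiesOverPrime p ∧ ∃ M₁ : ℕ, 0 < M₁ ∧
      ∀ k : ℕ, ∀ x ∈ FixedPoints.addSubgroup Γℚ (JZero p),
        ∃ z' : JZero p, r ^ k • z' = M₁ • x ∧ ∀ s ∈ Ap.inertiaSubgroupIn ℚ, s • z' = z' := by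
  obtain ⟨Ap, hAp, M₀, hM₀, hK'⟩ := hK
  have h : p ∣ p * 2 * 2 := ⟨2 * 2, by ring⟩
  exact ⟨Ap, hAp, levelDeg h * M₀, Nat.mul_pos (levelDeg_pos h) hM₀,
    k3_transfer h r (Ap.inertiaSubgroupIn ℚ : Set Γℚ) M₀ hK'⟩

end Fermat.Agent.MAZ.K3Level44
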